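import Mathlib.AlgebraicGeometry.EllipticCurve.VariableChange
import Mathlib.Tactic

/-!
# S52 helper: Weierstrass curves with the same `c₄`, `c₆` (characteristic `≠ 2, 3`)

* `eq_of_a_c` : two Weierstrass curves over a field in which `2, 3 ≠ 0` with the same
  `a₁, a₂, a₃, c₄, c₆` are equal.
* `vcOfInv u W₁ W₂` : the explicit variable change with scaling `u` matching `a₁, a₂, a₃`.
* `vcOfInv_smul` : if `W₁.c₄ = u⁴ W₂.c₄` and `W₁.c₆ = u⁶ W₂.c₆` then `vcOfInv u W₁ W₂ • W₁ = W₂`.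
* `eq_vcOfInv` : conversely every `C` with `C • W₁ = W₂` is `vcOfInv C.u W₁ W₂`.
-/

set_option autoImplicit false

namespace Fermat.Agent.S52.H410

open WeierstrassCurve

variable {K : Type*} [Field K]

/-- Two Weierstrass curves with the same `a₁, a₂, a₃, c₄, c₆` over a field where `2` and `3`
are invertible coincide. -/
theorem eq_of_a_c {W W' : WeierstrassCurve K} (h2 : (2 : K) ≠ 0) (h3 : (3 : K) ≠ 0)
    (h₁ : W.a₁ = W'.a₁) (h₂ : W.a₂ = W'.a₂) (h₃ : W.a₃ = W'.a₃)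
    (h4 : W.c₄ = W'.c₄) (h6 : W.c₆ = W'.c₆) : W = W' := by
  have hb₂ : W.b₂ = W'.b₂ := by simp only [b₂, h₁, h₂]
  have h48 : (48 : K) ≠ 0 := by
    have : (48 : K) = 2 ^ 4 * 3 := by norm_num
    rw [this]; exact mul_ne_zero (pow_ne_zero 4 h2) h3
  have h864 : (864 : K) ≠ 0 := by
    have : (864 : K) = 2 ^ 5 * 3 ^ 3 := by norm_num
    rw [this]; exact mul_ne_zero (pow_ne_zero 5 h2) (pow_ne_zero 3 h3)
  have ha₄ : W.a₄ = W'.a₄ := by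
    have : (48 : K) * (W.a₄ - W'.a₄) = 0 := by
      have e := h4
      simp only [c₄, b₂, b₄, h₁, h₂, h₃] at e
      linear_combination -e
    rcases mul_eq_zero.mp this with h | h
    · exact absurd h h48
    · exact sub_eq_zero.mp h
  have ha₆ : W.a₆ = W'.a₆ := by
    have : (864 : K) * (W.a₆ - W'.a₆) = 0 := by
      have e := h6
      simp only [c₆, b₂, b₄, b₆, h₁, h₂, h₃, ha₄] at e
      linear_combination -e
    rcases mul_eq_zero.mp this with h | h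
    · exact absurd h h864
    · exact sub_eq_zero.mp h
  ext <;> assumption

/-- The variable change with scaling `u` that matches `a₁, a₂, a₃` of `W₁` with those of `W₂`. -/
def vcOfInv (u : Kˣ) (W₁ W₂ : WeierstrassCurve K) : VariableChange K where
  u := u
  s := (u * W₂.a₁ - W₁.a₁) / 2
  r := (u ^ 2 * W₂.a₂ - W₁.a₂ + (u * W₂.a₁ - W₁.a₁) / 2 * W₁.a₁
        + ((u * W₂.a₁ - W₁.a₁) / 2) ^ 2) / 3
  t := (u ^ 3 * W₂.a₃ - W₁.a₃
        - (u ^ 2 * W₂.a₂ - W₁.a₂ + (u * W₂.a₁ - W₁.a₁) / 2 * W₁.a₁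
          + ((u * W₂.a₁ - W₁.a₁) / 2) ^ 2) / 3 * W₁.a₁) / 2

@[simp] lemma vcOfInv_u (u : Kˣ) (W₁ W₂ : WeierstrassCurve K) : (vcOfInv u W₁ W₂).u = u := rfl

lemma vcOfInv_s (u : Kˣ) (W₁ W₂ : WeierstrassCurve K) :
    (vcOfInv u W₁ W₂).s = (u * W₂.a₁ - W₁.a₁) / 2 := rfl

lemma vcOfInv_r (u : Kˣ) (W₁ W₂ : WeierstrassCurve K) :
    (vcOfInv u W₁ W₂).r = (u ^ 2 * W₂.a₂ - W₁.a₂ + (vcOfInv u W₁ W₂).s * W₁.a₁
        + (vcOfInv u W₁ W₂).s ^ 2) / 3 := rfl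

lemma vcOfInv_t (u : Kˣ) (W₁ W₂ : WeierstrassCurve K) :
    (vcOfInv u W₁ W₂).t = (u ^ 3 * W₂.a₃ - W₁.a₃ - (vcOfInv u W₁ W₂).r * W₁.a₁) / 2 := rfl

/-- If `c₄` and `c₆` match up to the scaling `u`, then `vcOfInv u W₁ W₂` carries `W₁` to `W₂`. -/
theorem vcOfInv_smul (h2 : (2 : K) ≠ 0) (h3 : (3 : K) ≠ 0) (u : Kˣ) (W₁ W₂ : WeierstrassCurve K)
    (h4 : W₁.c₄ = u ^ 4 * W₂.c₄) (h6 : W₁.c₆ = u ^ 6 * W₂.c₆) :
    vcOfInv u W₁ W₂ • W₁ = W₂ := by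
  have hu : (u : K) ≠ 0 := u.ne_zero
  have hinv : ((u⁻¹ : Kˣ) : K) = (u : K)⁻¹ := Units.val_inv_eq_inv_val u
  apply eq_of_a_c h2 h3
  · rw [variableChange_a₁, vcOfInv_u, vcOfInv_s, hinv]
    field_simp
    ring
  · rw [variableChange_a₂, vcOfInv_u, vcOfInv_r, hinv]
    field_simp
    ring
  · rw [variableChange_a₃, vcOfInv_u, vcOfInv_t, hinv]
    field_simp
    ring
  · rw [variableChange_c₄, vcOfInv_u, hinv, h4]
    field_simp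
  · rw [variableChange_c₆, vcOfInv_u, hinv, h6]
    field_simp

/-- Every variable change from `W₁` to `W₂` is the explicit one. -/
theorem eq_vcOfInv (h2 : (2 : K) ≠ 0) (h3 : (3 : K) ≠ 0) (C : VariableChange K)
    (W₁ W₂ : WeierstrassCurve K) (h : C • W₁ = W₂) : C = vcOfInv C.u W₁ W₂ := by
  have hu : (C.u : K) ≠ 0 := C.u.ne_zero
  have hinv : ((C.u⁻¹ : Kˣ) : K) = (C.u : K)⁻¹ := Units.val_inv_eq_inv_val C.u
  have e₁ : W₂.a₁ = (C.u : K)⁻¹ * (W₁.a₁ + 2 * C.s) := by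
    rw [← h, variableChange_a₁, hinv]
  have e₂ : W₂.a₂ = (C.u : K)⁻¹ ^ 2 * (W₁.a₂ - C.s * W₁.a₁ + 3 * C.r - C.s ^ 2) := by
    rw [← h, variableChange_a₂, hinv]
  have e₃ : W₂.a₃ = (C.u : K)⁻¹ ^ 3 * (W₁.a₃ + C.r * W₁.a₁ + 2 * C.t) := by
    rw [← h, variableChange_a₃, hinv]
  have hs : C.s = (C.u * W₂.a₁ - W₁.a₁) / 2 := by
    rw [e₁]; field_simp; ring
  have hr : C.r = (C.u ^ 2 * W₂.a₂ - W₁.a₂ + C.s * W₁.a₁ + C.s ^ 2) / 3 := by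
    rw [e₂]; field_simp; ring
  have ht : C.t = (C.u ^ 3 * W₂.a₃ - W₁.a₃ - C.r * W₁.a₁) / 2 := by
    rw [e₃]; field_simp; ring
  have hs' : C.s = (vcOfInv C.u W₁ W₂).s := hs
  have hr' : C.r = (vcOfInv C.u W₁ W₂).r := by
    rw [vcOfInv_r, ← hs']; exact hr
  have ht' : C.t = (vcOfInv C.u W₁ W₂).t := by
    rw [vcOfInv_t, ← hr']; exact ht
  ext
  · rfl
  · exact hr'
  · exact hs'
  · exact ht'

end Fermat.Agent.S52.H410
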