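import Mathlib.AlgebraicGeometry.EllipticCurve.Affine.Point
import Mathlib.AlgebraicGeometry.EllipticCurve.VariableChange
import Mathlib.Tactic

/-!
# S52, piece B1a (part 1): the Tate normal form of a point of order 5

`tnf c u` is the Weierstrass curve `y² + u(1-c)xy - u³c·y = x³ - u²c·x²`.  On it the point
`(0,0)` is nonsingular of order `5` as soon as `c ≠ 0` and `u ≠ 0`:
`2P = (u²c, u³c²)`, `3P = (u²c, 0)`, `4P = (0, u³c)`.
-/

set_option autoImplicit false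

namespace Fermat.Agent.S52.H410

open WeierstrassCurve

variable {K : Type*} [Field K]

/-- Tate normal form with a point of order `5` at `(0,0)`, scaled by `u`. -/
def tnf (c u : K) : WeierstrassCurve K :=
  ⟨u * (1 - c), -(u ^ 2 * c), -(u ^ 3 * c), 0, 0⟩

@[simp] lemma tnf_a₁ (c u : K) : (tnf c u).a₁ = u * (1 - c) := rfl
@[simp] lemma tnf_a₂ (c u : K) : (tnf c u).a₂ = -(u ^ 2 * c) := rfl
@[simp] lemma tnf_a₃ (c u : K) : (tnf c u).a₃ = -(u ^ 3 * c) := rfl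
@[simp] lemma tnf_a₄ (c u : K) : (tnf c u).a₄ = 0 := rfl
@[simp] lemma tnf_a₆ (c u : K) : (tnf c u).a₆ = 0 := rfl

lemma tnf_b₂ (c u : K) : (tnf c u).b₂ = u ^ 2 * (c ^ 2 - 6 * c + 1) := by
  simp only [b₂, tnf_a₁, tnf_a₂]; ring

lemma tnf_b₄ (c u : K) : (tnf c u).b₄ = u ^ 4 * (c ^ 2 - c) := by
  simp only [b₄, tnf_a₁, tnf_a₃, tnf_a₄]; ring

lemma tnf_b₆ (c u : K) : (tnf c u).b₆ = u ^ 6 * c ^ 2 := by
  simp only [b₆, tnf_a₃, tnf_a₆]; ring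

lemma tnf_b₈ (c u : K) : (tnf c u).b₈ = -(u ^ 8 * c ^ 3) := by
  simp only [b₈, tnf_a₁, tnf_a₂, tnf_a₃, tnf_a₄, tnf_a₆]; ring

/-- `c₄` of the Tate normal form: `u⁴·H₅(c,1)`. -/
lemma tnf_c₄ (c u : K) :
    (tnf c u).c₄ = u ^ 4 * (c ^ 4 - 12 * c ^ 3 + 14 * c ^ 2 + 12 * c + 1) := by
  simp only [c₄, tnf_b₂, tnf_b₄]; ring

/-- `c₆` of the Tate normal form: `u⁶·T₅(c,1)`. -/
lemma tnf_c₆ (c u : K) :
    (tnf c u).c₆ =
      -(u ^ 6 * ((c ^ 2 + 1) * (c ^ 4 - 18 * c ^ 3 + 74 * c ^ 2 + 18 * c + 1))) := by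
  simp only [c₆, tnf_b₂, tnf_b₄, tnf_b₆]; ring

/-- The discriminant of the Tate normal form. -/
lemma tnf_Δ (c u : K) : (tnf c u).Δ = u ^ 12 * (c ^ 5 * (c ^ 2 - 11 * c - 1)) := by
  simp only [Δ, tnf_b₂, tnf_b₄, tnf_b₆, tnf_b₈]; ring

lemma tnf_c_ne_zero_of_Δ {c u : K} (h : (tnf c u).Δ ≠ 0) : c ≠ 0 := by
  rintro rfl; apply h; rw [tnf_Δ]; ring

lemma tnf_u_ne_zero_of_Δ {c u : K} (h : (tnf c u).Δ ≠ 0) : u ≠ 0 := by
  rintro rfl; apply h; rw [tnf_Δ]; ring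

section Point

variable {c u : K}

open WeierstrassCurve.Affine

lemma tnf_negY (x y : K) : (tnf c u).toAffine.negY x y = -y - u * (1 - c) * x + u ^ 3 * c := by
  simp only [Affine.negY, tnf_a₁, tnf_a₃]; ring

/-- `(0,0)` is a nonsingular point of `tnf c u`. -/
lemma tnf_nonsingular_zero (hc : c ≠ 0) (hu : u ≠ 0) :
    (tnf c u).toAffine.Nonsingular 0 0 := by
  rw [Affine.nonsingular_zero]
  refine ⟨rfl, Or.inl ?_⟩
  simp only [tnf_a₃, ne_eq, neg_eq_zero, mul_eq_zero, not_or]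
  exact ⟨pow_ne_zero 3 hu, hc⟩

/-- `(u²c, u³c²)` is a nonsingular point of `tnf c u`. -/
lemma tnf_nonsingular_two (hc : c ≠ 0) (hu : u ≠ 0) :
    (tnf c u).toAffine.Nonsingular (u ^ 2 * c) (u ^ 3 * c ^ 2) := by
  rw [Affine.nonsingular_iff', Affine.equation_iff]
  refine ⟨by simp only [tnf_a₁, tnf_a₂, tnf_a₃, tnf_a₄, tnf_a₆]; ring, Or.inr ?_⟩
  simp only [tnf_a₁, tnf_a₃]
  have : 2 * (u ^ 3 * c ^ 2) + u * (1 - c) * (u ^ 2 * c) + -(u ^ 3 * c) = u ^ 3 * c ^ 2 := by ring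
  rw [this]
  exact mul_ne_zero (pow_ne_zero 3 hu) (pow_ne_zero 2 hc)

/-- The point `P = (0,0)` on the Tate normal form. -/
def tnfP (hc : c ≠ 0) (hu : u ≠ 0) : (tnf c u).toAffine.Point :=
  Point.some 0 0 (tnf_nonsingular_zero hc hu)

/-- The point `2P = (u²c, u³c²)` on the Tate normal form. -/
def tnfQ (hc : c ≠ 0) (hu : u ≠ 0) : (tnf c u).toAffine.Point :=
  Point.some (u ^ 2 * c) (u ^ 3 * c ^ 2) (tnf_nonsingular_two hc hu)

lemma tnfP_ne_zero (hc : c ≠ 0) (hu : u ≠ 0) : tnfP hc hu ≠ 0 := Point.some_ne_zero _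

variable [DecidableEq K]

/-- `P + P = (u²c, u³c²)`. -/
lemma tnfP_add_self (hc : c ≠ 0) (hu : u ≠ 0) : tnfP hc hu + tnfP hc hu = tnfQ hc hu := by
  have hy : (0 : K) ≠ (tnf c u).toAffine.negY 0 0 := by
    rw [tnf_negY]
    have : -(0 : K) - u * (1 - c) * 0 + u ^ 3 * c = u ^ 3 * c := by ring
    rw [this]
    exact (mul_ne_zero (pow_ne_zero 3 hu) hc).symm
  rw [tnfP, tnfQ, Point.add_self_of_Y_ne hy]
  have hs : (tnf c u).toAffine.slope 0 0 0 0 = 0 := by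
    rw [Affine.slope_of_Y_ne rfl hy]
    simp only [tnf_a₁, tnf_a₂, tnf_a₄]
    have : (3 * (0 : K) ^ 2 + 2 * -(u ^ 2 * c) * 0 + 0 - u * (1 - c) * 0) = 0 := by ring
    rw [this, zero_div]
  have hX : (tnf c u).toAffine.addX 0 0 ((tnf c u).toAffine.slope 0 0 0 0) = u ^ 2 * c := by
    rw [hs]; simp only [Affine.addX, tnf_a₁, tnf_a₂]; ring
  have hY : (tnf c u).toAffine.addY 0 0 0 ((tnf c u).toAffine.slope 0 0 0 0) =
      u ^ 3 * c ^ 2 := by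
    rw [hs]
    simp only [Affine.addY, Affine.negAddY, Affine.addX, Affine.negY, tnf_a₁, tnf_a₂, tnf_a₃]
    ring
  simp only [Point.some.injEq]
  exact ⟨hX, hY⟩

/-- `2P + 2P = -P`. -/
lemma tnfQ_add_self (hc : c ≠ 0) (hu : u ≠ 0) : tnfQ hc hu + tnfQ hc hu = -tnfP hc hu := by
  have hny : (tnf c u).toAffine.negY (u ^ 2 * c) (u ^ 3 * c ^ 2) = 0 := by
    rw [tnf_negY]; ring
  have hy : u ^ 3 * c ^ 2 ≠ (tnf c u).toAffine.negY (u ^ 2 * c) (u ^ 3 * c ^ 2) := by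
    rw [hny]
    exact mul_ne_zero (pow_ne_zero 3 hu) (pow_ne_zero 2 hc)
  rw [tnfP, tnfQ, Point.add_self_of_Y_ne hy, Point.neg_some]
  have hs : (tnf c u).toAffine.slope (u ^ 2 * c) (u ^ 2 * c) (u ^ 3 * c ^ 2) (u ^ 3 * c ^ 2) =
      u * c := by
    rw [Affine.slope_of_Y_ne rfl hy, hny, sub_zero]
    simp only [tnf_a₁, tnf_a₂, tnf_a₄]
    rw [div_eq_iff (mul_ne_zero (pow_ne_zero 3 hu) (pow_ne_zero 2 hc))]
    ring
  have hX : (tnf c u).toAffine.addX (u ^ 2 * c) (u ^ 2 * c)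
      ((tnf c u).toAffine.slope (u ^ 2 * c) (u ^ 2 * c) (u ^ 3 * c ^ 2) (u ^ 3 * c ^ 2)) = 0 := by
    rw [hs]; simp only [Affine.addX, tnf_a₁, tnf_a₂]; ring
  have hY : (tnf c u).toAffine.addY (u ^ 2 * c) (u ^ 2 * c) (u ^ 3 * c ^ 2)
      ((tnf c u).toAffine.slope (u ^ 2 * c) (u ^ 2 * c) (u ^ 3 * c ^ 2) (u ^ 3 * c ^ 2)) =
      (tnf c u).toAffine.negY 0 0 := by
    rw [hs]
    simp only [Affine.addY, Affine.negAddY, Affine.addX, Affine.negY, tnf_a₁, tnf_a₂, tnf_a₃]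
    ring
  simp only [Point.some.injEq]
  exact ⟨hX, hY⟩

/-- **(T1)** The point `(0,0)` of the Tate normal form is killed by `5`. -/
theorem tnfP_five_nsmul (hc : c ≠ 0) (hu : u ≠ 0) : 5 • tnfP hc hu = 0 := by
  have h : (5 : ℕ) • tnfP hc hu =
      tnfP hc hu + ((tnfP hc hu + tnfP hc hu) + (tnfP hc hu + tnfP hc hu)) := by
    abel
  rw [h, tnfP_add_self, tnfQ_add_self, add_neg_cancel]

theorem tnfP_five_zsmul (hc : c ≠ 0) (hu : u ≠ 0) : (5 : ℤ) • tnfP hc hu = 0 := by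
  have := tnfP_five_nsmul hc hu
  rw [← natCast_zsmul] at this
  exact_mod_cast this

end Point

end Fermat.Agent.S52.H410
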