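import Fermat.Agent.S52.H410.Tate5

/-!
# S52, piece B1a (part 2): every point of order 5 can be put in Tate normal form

`exists_tnf`: if `P = (x₀, y₀)` is a nonsingular point of a Weierstrass curve `W` over a field
with `5 • P = 0`, then there are `c ≠ 0` and a variable change `C` with `C • W = tnf c 1`,
`C.r = x₀`, `C.t = y₀` (so that `P` corresponds to the point `(0,0)` of `tnf c 1`).
No hypothesis on the characteristic or on the discriminant.
-/

set_option autoImplicit false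

namespace Fermat.Agent.S52.H410

open WeierstrassCurve WeierstrassCurve.Affine

variable {K : Type*} [Field K] [DecidableEq K]

/-- The algebraic core: the relation `D² - A₁A₂D + A₂³ = 0` satisfied by a point of order 5. -/
theorem tate_relation (W : WeierstrassCurve K) {x₀ y₀ : K}
    (h : W.toAffine.Nonsingular x₀ y₀) (h5 : 5 • (Point.some x₀ y₀ h) = 0) :
    ∃ s D A₂ : K, D ≠ 0 ∧ A₂ ≠ 0 ∧ D = 2 * y₀ + W.a₁ * x₀ + W.a₃ ∧
      s * D = 3 * x₀ ^ 2 + 2 * W.a₂ * x₀ + W.a₄ - W.a₁ * y₀ ∧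
      A₂ = W.a₂ - s * W.a₁ + 3 * x₀ - s ^ 2 ∧
      D ^ 2 - (W.a₁ + 2 * s) * A₂ * D + A₂ ^ 3 = 0 := by
  set P : W.toAffine.Point := Point.some x₀ y₀ h with hP
  have hP0 : P ≠ 0 := Point.some_ne_zero h
  -- `2P ≠ 0`
  have h2 : P + P ≠ 0 := by
    intro h2
    apply hP0
    have : P = 5 • P - 2 • (P + P) := by abel
    rw [this, h5, h2, smul_zero, sub_zero]
  have hy : y₀ ≠ W.toAffine.negY x₀ y₀ := by
    intro hy
    exact h2 (Point.add_self_of_Y_eq hy)
  set D : K := y₀ - W.toAffine.negY x₀ y₀ with hD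
  have hD0 : D ≠ 0 := sub_ne_zero.mpr hy
  have hD' : D = 2 * y₀ + W.a₁ * x₀ + W.a₃ := by
    simp only [hD, Affine.negY]; ring
  set s : K := W.toAffine.slope x₀ x₀ y₀ y₀ with hs
  have hsD : s * D = 3 * x₀ ^ 2 + 2 * W.a₂ * x₀ + W.a₄ - W.a₁ * y₀ := by
    rw [hs, Affine.slope_of_Y_ne rfl hy, div_mul_cancel₀ _ hD0]
  set x₂ : K := W.toAffine.addX x₀ x₀ s with hx₂
  set y₂ : K := W.toAffine.addY x₀ x₀ y₀ s with hy₂
  have h2P : P + P = Point.some x₂ y₂ (Affine.nonsingular_add h h fun hxy => hy hxy.right) :=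
    Point.add_self_of_Y_ne hy
  set Q : W.toAffine.Point :=
    Point.some x₂ y₂ (Affine.nonsingular_add h h fun hxy => hy hxy.right) with hQ
  set A₂ : K := W.a₂ - s * W.a₁ + 3 * x₀ - s ^ 2 with hA₂
  have hx₂' : x₂ = x₀ - A₂ := by
    simp only [hx₂, hA₂, Affine.addX]; ring
  -- `x₂ ≠ x₀`
  have hxne : x₀ ≠ x₂ := by
    intro hxe
    have hQeq := Affine.Y_eq_of_X_eq h.1
      (Affine.nonsingular_add h h fun hxy => hy hxy.right).1 hxe
    rcases hQeq with hyy | hyy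
    · -- `P = 2P`
      have : P = Q := by
        simp only [hP, hQ, Point.some.injEq]; exact ⟨hxe, hyy⟩
      apply hP0
      have h' : P + P = P := by rw [h2P, ← this]
      simp at h'
    · -- `P = -2P`
      have : P = -Q := by
        rw [hQ, Point.neg_some]
        simp only [hP, Point.some.injEq]; exact ⟨hxe, hyy⟩
      apply hP0
      have h3 : P + (P + P) = 0 := by rw [h2P, this]; simp
      have : P = 2 • (P + (P + P)) - 5 • P := by abel
      rw [this, h3, h5, smul_zero, sub_zero]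
  have hA₂0 : A₂ ≠ 0 := by
    intro h0
    apply hxne
    rw [hx₂', h0, sub_zero]
  -- `P + 2P = -2P`
  have h3 : P + Q = -Q := by
    rw [← h2P]
    have : P + (P + P) + (P + P) = 5 • P := by abel
    rw [h5] at this
    exact eq_neg_of_add_eq_zero_left this
  rw [hP, hQ, Point.add_of_X_ne hxne, Point.neg_some] at h3
  simp only [Point.some.injEq] at h3
  obtain ⟨hX, -⟩ := h3
  set μ : K := W.toAffine.slope x₀ x₂ y₀ y₂ with hμ
  have hμ' : μ * A₂ = D - (s + W.a₁) * A₂ := by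
    have hA : x₀ - x₂ = A₂ := by rw [hx₂']; ring
    rw [hμ, Affine.slope_of_X_ne hxne, hA, div_mul_cancel₀ _ hA₂0, hD']
    simp only [hy₂, Affine.addY, Affine.negAddY, Affine.negY, ← hx₂]
    rw [hx₂']; ring
  refine ⟨s, D, A₂, hD0, hA₂0, hD', hsD, rfl, ?_⟩
  have hX' : μ ^ 2 + W.a₁ * μ - W.a₂ - x₀ - x₂ = x₂ := by
    simpa only [Affine.addX] using hX
  have ha₂ : W.a₂ = A₂ + s * W.a₁ - 3 * x₀ + s ^ 2 := by simp only [hA₂]; ring
  have key : (μ * A₂) ^ 2 + W.a₁ * (μ * A₂) * A₂ - (W.a₂ + x₀ + 2 * x₂) * A₂ ^ 2 = 0 := by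
    linear_combination A₂ ^ 2 * hX'
  rw [hμ', hx₂'] at key
  linear_combination key + A₂ ^ 2 * ha₂

/-- **(T2)** Tate normal form: a nonsingular point `P = (x₀, y₀)` with `5 • P = 0` on a
Weierstrass curve over a field is the point `(0,0)` of a curve `tnf c 1` after a variable
change. -/
theorem exists_tnf (W : WeierstrassCurve K) {x₀ y₀ : K}
    (h : W.toAffine.Nonsingular x₀ y₀) (h5 : 5 • (Point.some x₀ y₀ h) = 0) :
    ∃ (c : K) (C : VariableChange K), c ≠ 0 ∧ C • W = tnf c 1 ∧ C.r = x₀ ∧ C.t = y₀ := by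
  obtain ⟨s, D, A₂, hD0, hA₂0, hD, hsD, hA₂, hrel⟩ := tate_relation W h h5
  have hu0 : D / A₂ ≠ 0 := div_ne_zero hD0 hA₂0
  refine ⟨-(A₂ ^ 3 / D ^ 2), ⟨Units.mk0 (D / A₂) hu0, x₀, s, y₀⟩, ?_, ?_, rfl, rfl⟩
  · exact neg_ne_zero.mpr (div_ne_zero (pow_ne_zero 3 hA₂0) (pow_ne_zero 2 hD0))
  · have hinv : ((Units.mk0 (D / A₂) hu0)⁻¹ : Kˣ).val = A₂ / D := by
      rw [Units.val_inv_eq_inv_val, Units.val_mk0, inv_div]
    have heq := (Affine.equation_iff (W := W.toAffine) x₀ y₀).mp h.1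
    ext
    · -- a₁
      rw [variableChange_a₁, hinv, tnf_a₁]
      field_simp
      linear_combination -hrel
    · -- a₂
      rw [variableChange_a₂, hinv, tnf_a₂]
      field_simp
      linear_combination -hA₂
    · -- a₃
      rw [variableChange_a₃, hinv, tnf_a₃]
      field_simp
      linear_combination -hD
    · -- a₄
      rw [variableChange_a₄, hinv, tnf_a₄]
      have : W.a₄ - s * W.a₃ + 2 * x₀ * W.a₂ - (y₀ + x₀ * s) * W.a₁ + 3 * x₀ ^ 2 - 2 * s * y₀
          = 0 := by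
        linear_combination -hsD + s * hD
      rw [this, mul_zero]
    · -- a₆
      rw [variableChange_a₆, hinv, tnf_a₆]
      have : W.a₆ + x₀ * W.a₄ + x₀ ^ 2 * W.a₂ + x₀ ^ 3 - y₀ * W.a₃ - y₀ ^ 2 - x₀ * y₀ * W.a₁
          = 0 := by
        linear_combination -heq
      rw [this, mul_zero]

end Fermat.Agent.S52.H410
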